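/-
S55 engine E1 — block LIM: OBJECTS OF THE TOWER (definitions, sorry-free).
Sub-architect E1-LIM: helper474.  Blueprint: coord/S55-E1.md §4, coord/S55-E1-LIM.md.
Namespace `Fermat.Agent.S55.E1.Lim`.  Built on the canonical `Spec/Tower*.lean`, `Spec/Datum2.lean`,
`Bridge/FiniteLevel.lean`.

* `homOfAdd` : a `Rep ℤ G`-morphism from an equivariant additive map;
* `zRep A : Rep ℤ G` : restriction of scalars of `A : Rep k G` to `ℤ` (same carrier);
* `piRep A : Rep ℤ G` : the product of a family of `G`-modules (carrier `∀ i, (A i).V`),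
  `piProj`, `piLift`, `piDesc`;
* `sUnits L : Rep ℤ L.Gal` : the `S`-units `E(F)` of a level, `sIncl : E(F) ⟶ Fˣ`, `trS`;
* `Jtot L = ∏_{q ∈ S} J_q(F)`, `diagTot : E(F) ⟶ J(F)`, `jTot D : J(F) ⟶ C(F)`, `trJtot`;
* `C1 D L = im (J(F) → C(F))`, `jC1 : J(F) ⟶ C'(F)`, `inclC1 : C'(F) ⟶ C(F)`, `trC1`.
-/
import Fermat.Agent.S55.Spec.Datum2
import Fermat.Agent.S55.Bridge.FiniteLevel

set_option autoImplicit false

open CategoryTheory CategoryTheory.Limits

namespace Fermat.Agent.S55.E1.Lim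

open Fermat.Agent.S55.Tow

noncomputable section

attribute [local instance 10000] Rep.hV2
attribute [local instance 9000] Pi.module

/-! ## Generic helpers -/

section Generic

variable {G G' : Type} [Group G] [Group G']

/-- The `ℤ`-linear map underlying an additive map between `G`-modules. -/
def linOfAdd {A : Rep.{0} ℤ G} {B : Rep.{0} ℤ G'} (k : A.V →+ B.V) : A.V →ₗ[ℤ] B.V where
  toFun := k
  map_add' := map_add k
  map_smul' m x := by
    have h1 := int_smul_eq_zsmul A.hV2 m x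
    have h2 := int_smul_eq_zsmul B.hV2 m (k x)
    exact (congrArg k h1).trans ((map_zsmul k m x).trans h2.symm)

@[simp] lemma linOfAdd_apply {A : Rep.{0} ℤ G} {B : Rep.{0} ℤ G'} (k : A.V →+ B.V) (a : A.V) :
    linOfAdd k a = k a := rfl

/-- A morphism of `G`-modules from an equivariant additive map. -/
def homOfAdd {A B : Rep.{0} ℤ G} (k : A.V →+ B.V)
    (hk : ∀ (g : G) (a : A.V), k (A.ρ g a) = B.ρ g (k a)) : A ⟶ B :=
  Rep.ofHom ⟨linOfAdd k, fun g => LinearMap.ext (hk g)⟩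

@[simp] lemma homOfAdd_apply {A B : Rep.{0} ℤ G} (k : A.V →+ B.V)
    (hk : ∀ (g : G) (a : A.V), k (A.ρ g a) = B.ρ g (k a)) (a : A.V) :
    (homOfAdd k hk).hom a = k a := rfl

/-- A semilinear morphism `Res_π A ⟶ B` from an additive map with `k (π(g') a) = g' k(a)`. -/
def semiOfAdd (π : G' →* G) {A : Rep.{0} ℤ G} {B : Rep.{0} ℤ G'} (k : A.V →+ B.V)
    (hk : ∀ (g' : G') (a : A.V), k (A.ρ (π g') a) = B.ρ g' (k a)) : Rep.res π A ⟶ B :=
  Rep.ofHom ⟨linOfAdd (A := Rep.res π A) k, fun g' => LinearMap.ext (hk g')⟩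

@[simp] lemma semiOfAdd_apply (π : G' →* G) {A : Rep.{0} ℤ G} {B : Rep.{0} ℤ G'} (k : A.V →+ B.V)
    (hk : ∀ (g' : G') (a : A.V), k (A.ρ (π g') a) = B.ρ g' (k a)) (a : A.V) :
    (semiOfAdd π k hk).hom a = k a := rfl

/-- A submodule (for the module structure of `A`) from an additive subgroup. -/
def subOfAdd (A : Rep.{0} ℤ G) (W : AddSubgroup A.V) : Submodule ℤ A.V where
  carrier := W
  add_mem' := W.add_mem
  zero_mem' := W.zero_mem
  smul_mem' m x hx := by
    have h1 := int_smul_eq_zsmul A.hV2 m x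
    exact Eq.mpr (congrArg (fun t => t ∈ W) h1) (W.zsmul_mem hx m)

@[simp] lemma mem_subOfAdd (A : Rep.{0} ℤ G) (W : AddSubgroup A.V) (x : A.V) :
    x ∈ subOfAdd A W ↔ x ∈ W := Iff.rfl

/-- The sub-`G`-module on a `G`-stable additive subgroup. -/
def subRep (A : Rep.{0} ℤ G) (W : AddSubgroup A.V) (hW : ∀ (g : G) (x : A.V), x ∈ W → A.ρ g x ∈ W) :
    Rep.{0} ℤ G :=
  Rep.subrepresentation A (subOfAdd A W) (fun g x hx => hW g x hx)

/-- The inclusion of `subRep`. -/
def subIncl (A : Rep.{0} ℤ G) (W : AddSubgroup A.V)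
    (hW : ∀ (g : G) (x : A.V), x ∈ W → A.ρ g x ∈ W) : subRep A W hW ⟶ A :=
  Rep.subtype A (subOfAdd A W) (fun g x hx => hW g x hx)

/-- The underlying element of the ambient module. -/
def subVal {A : Rep.{0} ℤ G} {W : AddSubgroup A.V}
    {hW : ∀ (g : G) (x : A.V), x ∈ W → A.ρ g x ∈ W} (x : (subRep A W hW).V) : A.V :=
  (subIncl A W hW).hom x

lemma subVal_mem {A : Rep.{0} ℤ G} {W : AddSubgroup A.V}
    {hW : ∀ (g : G) (x : A.V), x ∈ W → A.ρ g x ∈ W} (x : (subRep A W hW).V) :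
    subVal x ∈ W := x.2

lemma subVal_injective {A : Rep.{0} ℤ G} {W : AddSubgroup A.V}
    {hW : ∀ (g : G) (x : A.V), x ∈ W → A.ρ g x ∈ W} :
    Function.Injective (subVal : (subRep A W hW).V → A.V) := Subtype.val_injective

/-- Constructor for elements of `subRep`. -/
def subMk {A : Rep.{0} ℤ G} {W : AddSubgroup A.V}
    {hW : ∀ (g : G) (x : A.V), x ∈ W → A.ρ g x ∈ W} (a : A.V) (ha : a ∈ W) :
    (subRep A W hW).V := ⟨a, ha⟩

@[simp] lemma subVal_subMk {A : Rep.{0} ℤ G} {W : AddSubgroup A.V}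
    {hW : ∀ (g : G) (x : A.V), x ∈ W → A.ρ g x ∈ W} (a : A.V) (ha : a ∈ W) :
    subVal (subMk (hW := hW) a ha) = a := rfl

lemma subVal_ρ {A : Rep.{0} ℤ G} {W : AddSubgroup A.V}
    {hW : ∀ (g : G) (x : A.V), x ∈ W → A.ρ g x ∈ W} (g : G) (x : (subRep A W hW).V) :
    subVal ((subRep A W hW).ρ g x) = A.ρ g (subVal x) := rfl

lemma subVal_add {A : Rep.{0} ℤ G} {W : AddSubgroup A.V}
    {hW : ∀ (g : G) (x : A.V), x ∈ W → A.ρ g x ∈ W} (x y : (subRep A W hW).V) :
    subVal (x + y) = subVal x + subVal y := rfl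

/-- Corestriction of a morphism to a `G`-stable subgroup containing its image. -/
def subLift {A B : Rep.{0} ℤ G} (W : AddSubgroup A.V)
    (hW : ∀ (g : G) (x : A.V), x ∈ W → A.ρ g x ∈ W) (f : B ⟶ A) (hf : ∀ b : B.V, f.hom b ∈ W) :
    B ⟶ subRep A W hW :=
  homOfAdd
    { toFun := fun b => subMk (f.hom b) (hf b)
      map_zero' := subVal_injective (by
        show f.hom 0 = 0
        exact map_zero f.hom)
      map_add' := fun x y => subVal_injective (by
        show f.hom (x + y) = f.hom x + f.hom y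
        exact map_add f.hom x y) }
    (fun g b => subVal_injective (by
      show f.hom (B.ρ g b) = A.ρ g (f.hom b)
      exact Rep.hom_comm_apply f g b))

@[simp] lemma subVal_subLift {A B : Rep.{0} ℤ G} (W : AddSubgroup A.V)
    (hW : ∀ (g : G) (x : A.V), x ∈ W → A.ρ g x ∈ W) (f : B ⟶ A) (hf : ∀ b : B.V, f.hom b ∈ W)
    (b : B.V) : subVal ((subLift W hW f hf).hom b) = f.hom b := rfl

/-- Semilinear map between sub-modules induced by a semilinear map of the ambient modules. -/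
def subSemi (π : G' →* G) {A : Rep.{0} ℤ G} {B : Rep.{0} ℤ G'} (W : AddSubgroup A.V)
    (hW : ∀ (g : G) (x : A.V), x ∈ W → A.ρ g x ∈ W) (W' : AddSubgroup B.V)
    (hW' : ∀ (g : G') (x : B.V), x ∈ W' → B.ρ g x ∈ W') (ι : Rep.res π A ⟶ B)
    (hι : ∀ a : A.V, a ∈ W → ι.hom a ∈ W') :
    Rep.res π (subRep A W hW) ⟶ subRep B W' hW' :=
  semiOfAdd π (A := subRep A W hW) (B := subRep B W' hW')
    { toFun := fun x => subMk (ι.hom (subVal (A := A) (hW := hW) x))
        (hι _ (subVal_mem (A := A) (hW := hW) x))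
      map_zero' := subVal_injective (by
        show ι.hom (0 : A.V) = 0
        exact map_zero ι.hom)
      map_add' := fun x y => subVal_injective (by
        show ι.hom (subVal (A := A) (hW := hW) x + subVal (A := A) (hW := hW) y : A.V) =
          ι.hom (subVal (A := A) (hW := hW) x) + ι.hom (subVal (A := A) (hW := hW) y)
        exact map_add ι.hom _ _) }
    (fun g' x => subVal_injective (by
      show ι.hom (A.ρ (π g') (subVal (A := A) (hW := hW) x)) =
        B.ρ g' (ι.hom (subVal (A := A) (hW := hW) x))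
      exact Rep.hom_comm_apply ι g' (subVal (A := A) (hW := hW) x)))

@[simp] lemma subVal_subSemi (π : G' →* G) {A : Rep.{0} ℤ G} {B : Rep.{0} ℤ G'}
    (W : AddSubgroup A.V) (hW : ∀ (g : G) (x : A.V), x ∈ W → A.ρ g x ∈ W) (W' : AddSubgroup B.V)
    (hW' : ∀ (g : G') (x : B.V), x ∈ W' → B.ρ g x ∈ W') (ι : Rep.res π A ⟶ B)
    (hι : ∀ a : A.V, a ∈ W → ι.hom a ∈ W') (x : (subRep A W hW).V) :
    subVal (hW := hW') ((subSemi π W hW W' hW' ι hι).hom x) =
      ι.hom (subVal (A := A) (hW := hW) x) := rfl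

end Generic

/-! ## Restriction of scalars to `ℤ` -/

section ZRep

variable {k G : Type} [CommRing k] [Group G]

/-- Restriction of scalars to `ℤ` (same carrier, same action). -/
def zRep (A : Rep.{0} k G) : Rep.{0} ℤ G :=
  @Rep.of ℤ G _ _ A.V _ (AddCommGroup.toIntModule A.V)
    { toFun := fun g => (AddMonoidHom.mk' (A.ρ g) (map_add _)).toIntLinearMap
      map_one' := by
        refine LinearMap.ext fun a => ?_
        show A.ρ 1 a = a
        rw [map_one]; rfl
      map_mul' := fun g h => by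
        refine LinearMap.ext fun a => ?_
        show A.ρ (g * h) a = A.ρ g (A.ρ h a)
        rw [map_mul]; rfl }

/-- The carrier of `zRep A` is the carrier of `A`. -/
def zOf {A : Rep.{0} k G} (a : A.V) : (zRep A).V := a

/-- The carrier of `zRep A` is the carrier of `A`. -/
def zTo {A : Rep.{0} k G} (a : (zRep A).V) : A.V := a

@[simp] lemma zTo_zOf {A : Rep.{0} k G} (a : A.V) : zTo (zOf a) = a := rfl

@[simp] lemma zOf_zTo {A : Rep.{0} k G} (a : (zRep A).V) : zOf (zTo a) = a := rfl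

lemma zRep_ρ (A : Rep.{0} k G) (g : G) (a : (zRep A).V) : zTo ((zRep A).ρ g a) = A.ρ g (zTo a) :=
  rfl

lemma zTo_add {A : Rep.{0} k G} (a b : (zRep A).V) : zTo (a + b) = zTo a + zTo b := rfl

lemma zRep_ρ_eq_one {A : Rep.{0} k G} {g : G} (h : A.ρ g = 1) : (zRep A).ρ g = 1 := by
  refine LinearMap.ext fun a => ?_
  show A.ρ g (zTo a) = a
  rw [h]; rfl

end ZRep

/-! ## Products -/

section Pi

variable {G G' : Type} [Group G] [Group G'] {ι : Type}

/-- The product of a family of `G`-modules. -/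
def piRep (A : ι → Rep.{0} ℤ G) : Rep.{0} ℤ G :=
  @Rep.of ℤ G _ _ (∀ i, (A i).V) _ (Pi.module ι (fun i => (A i).V) ℤ)
    { toFun := fun g => LinearMap.pi (fun i => (A i).ρ g ∘ₗ LinearMap.proj i)
      map_one' := by
        refine LinearMap.ext fun a => funext fun i => ?_
        show (A i).ρ 1 (a i) = a i
        rw [map_one]; rfl
      map_mul' := fun g h => by
        refine LinearMap.ext fun a => funext fun i => ?_
        show (A i).ρ (g * h) (a i) = (A i).ρ g ((A i).ρ h (a i))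
        rw [map_mul]; rfl }

/-- Components of an element of the product. -/
def piTo {A : ι → Rep.{0} ℤ G} (x : (piRep A).V) (i : ι) : (A i).V := x i

/-- Constructor for elements of the product. -/
def piOf {A : ι → Rep.{0} ℤ G} (x : ∀ i, (A i).V) : (piRep A).V := x

@[simp] lemma piTo_piOf {A : ι → Rep.{0} ℤ G} (x : ∀ i, (A i).V) (i : ι) :
    piTo (piOf x) i = x i := rfl

lemma piRep_ext {A : ι → Rep.{0} ℤ G} {x y : (piRep A).V} (h : ∀ i, piTo x i = piTo y i) :
    x = y := funext h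

lemma piTo_ρ {A : ι → Rep.{0} ℤ G} (g : G) (x : (piRep A).V) (i : ι) :
    piTo ((piRep A).ρ g x) i = (A i).ρ g (piTo x i) := rfl

lemma piTo_add {A : ι → Rep.{0} ℤ G} (x y : (piRep A).V) (i : ι) :
    piTo (x + y) i = piTo x i + piTo y i := rfl

/-- The projections. -/
def piProj (A : ι → Rep.{0} ℤ G) (i : ι) : piRep A ⟶ A i :=
  homOfAdd { toFun := fun x => piTo x i, map_zero' := rfl, map_add' := fun _ _ => rfl }
    (fun _ _ => rfl)

@[simp] lemma piProj_apply (A : ι → Rep.{0} ℤ G) (i : ι) (x : (piRep A).V) :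
    (piProj A i).hom x = piTo x i := rfl

/-- The universal map into the product. -/
def piLift {A : ι → Rep.{0} ℤ G} {X : Rep.{0} ℤ G} (f : ∀ i, X ⟶ A i) : X ⟶ piRep A :=
  homOfAdd
    { toFun := fun x => piOf (fun i => (f i).hom x)
      map_zero' := piRep_ext fun i => map_zero (f i).hom
      map_add' := fun x y => piRep_ext fun i => map_add (f i).hom x y }
    (fun g x => piRep_ext fun i => Rep.hom_comm_apply (f i) g x)

@[simp] lemma piTo_piLift {A : ι → Rep.{0} ℤ G} {X : Rep.{0} ℤ G} (f : ∀ i, X ⟶ A i) (x : X.V)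
    (i : ι) : piTo ((piLift f).hom x) i = (f i).hom x := rfl

/-- The sum map out of a finite product. -/
def piDesc [Fintype ι] {A : ι → Rep.{0} ℤ G} {X : Rep.{0} ℤ G} (f : ∀ i, A i ⟶ X) :
    piRep A ⟶ X :=
  homOfAdd
    { toFun := fun x => ∑ i, (f i).hom (piTo x i)
      map_zero' := by
        refine Finset.sum_eq_zero fun i _ => ?_
        exact map_zero (f i).hom
      map_add' := fun x y => by
        rw [← Finset.sum_add_distrib]
        refine Finset.sum_congr rfl fun i _ => ?_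
        exact map_add (f i).hom _ _ }
    (fun g x => by
      show ∑ i, (f i).hom (piTo ((piRep A).ρ g x) i) = X.ρ g (∑ i, (f i).hom (piTo x i))
      rw [map_sum]
      refine Finset.sum_congr rfl fun i _ => ?_
      exact Rep.hom_comm_apply (f i) g _)

lemma piDesc_apply [Fintype ι] {A : ι → Rep.{0} ℤ G} {X : Rep.{0} ℤ G} (f : ∀ i, A i ⟶ X)
    (x : (piRep A).V) : (piDesc f).hom x = ∑ i, (f i).hom (piTo x i) := rfl

/-- Semilinear map between products, componentwise. -/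
def piSemi (π : G' →* G) {A : ι → Rep.{0} ℤ G} {A' : ι → Rep.{0} ℤ G'}
    (t : ∀ i, Rep.res π (A i) ⟶ A' i) : Rep.res π (piRep A) ⟶ piRep A' :=
  semiOfAdd π (A := piRep A) (B := piRep A')
    { toFun := fun x => piOf (fun i => (t i).hom (piTo (A := A) x i))
      map_zero' := piRep_ext fun i => map_zero (t i).hom
      map_add' := fun x y => piRep_ext fun i => map_add (t i).hom _ _ }
    (fun g' x => piRep_ext fun i => Rep.hom_comm_apply (t i) g' (piTo (A := A) x i))

@[simp] lemma piTo_piSemi (π : G' →* G) {A : ι → Rep.{0} ℤ G} {A' : ι → Rep.{0} ℤ G'}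
    (t : ∀ i, Rep.res π (A i) ⟶ A' i) (x : (piRep A).V) (i : ι) :
    piTo (A := A') ((piSemi π t).hom x) i = (t i).hom (piTo (A := A) x i) := rfl

end Pi

/-! ## The `S`-units of a level -/

section SUnits

variable {S : Finset Nat.Primes}

lemma isSUnit_zero (L : Level S) : L.IsSUnit 0 := by
  intro ℓ hℓ A hA
  have h1 : ((L.val 0 : Qbarˣ) : Qbar) = 1 := rfl
  have h2 : (((L.val 0)⁻¹ : Qbarˣ) : Qbar) = 1 := by
    have : L.val 0 = 1 := rfl
    rw [this, inv_one]; rfl
  rw [h1, h2]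
  exact ⟨A.one_mem, A.one_mem⟩

lemma isSUnit_add (L : Level S) {x y : L.units.V} (hx : L.IsSUnit x) (hy : L.IsSUnit y) :
    L.IsSUnit (x + y) := by
  intro ℓ hℓ A hA
  have h1 : L.val (x + y) = L.val x * L.val y := rfl
  rw [h1, mul_inv, Units.val_mul, Units.val_mul]
  exact ⟨A.mul_mem _ _ (hx ℓ hℓ A hA).1 (hy ℓ hℓ A hA).1,
    A.mul_mem _ _ (hx ℓ hℓ A hA).2 (hy ℓ hℓ A hA).2⟩

lemma isSUnit_neg (L : Level S) {x : L.units.V} (hx : L.IsSUnit x) : L.IsSUnit (-x) := by
  intro ℓ hℓ A hA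
  have h1 : L.val (-x) = (L.val x)⁻¹ := rfl
  rw [h1, inv_inv]
  exact ⟨(hx ℓ hℓ A hA).2, (hx ℓ hℓ A hA).1⟩

/-- The additive subgroup of `S`-units of `F` all of whose conjugates are `S`-units
(= all `S`-units, leaf `LIM-E0`). -/
def sUnitsAdd (L : Level S) : AddSubgroup L.units.V where
  carrier := {x | ∀ g : L.Gal, L.IsSUnit (L.units.ρ g x)}
  zero_mem' := fun g => by
    rw [map_zero]; exact isSUnit_zero L
  add_mem' := fun {a b} ha hb g => by
    rw [map_add]; exact isSUnit_add L (ha g) (hb g)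
  neg_mem' := fun {a} ha g => by
    rw [map_neg]; exact isSUnit_neg L (ha g)

lemma mem_sUnitsAdd (L : Level S) (x : L.units.V) :
    x ∈ sUnitsAdd L ↔ ∀ g : L.Gal, L.IsSUnit (L.units.ρ g x) := Iff.rfl

lemma isSUnit_of_mem (L : Level S) {x : L.units.V} (hx : x ∈ sUnitsAdd L) : L.IsSUnit x := by
  have := hx 1
  rwa [map_one] at this

lemma sUnitsAdd_stable (L : Level S) (g : L.Gal) (x : L.units.V) (hx : x ∈ sUnitsAdd L) :
    L.units.ρ g x ∈ sUnitsAdd L := fun g' => by
  have := hx (g' * g)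
  rwa [map_mul] at this

/-- `E(F)`: the `S`-units of a level, as a `Gal(F/ℚ)`-module. -/
def sUnits (L : Level S) : Rep.{0} ℤ L.Gal := subRep L.units (sUnitsAdd L) (sUnitsAdd_stable L)

/-- The inclusion `E(F) ⟶ Fˣ`. -/
def sIncl (L : Level S) : sUnits L ⟶ L.units := subIncl L.units (sUnitsAdd L) (sUnitsAdd_stable L)

lemma sIncl_injective (L : Level S) : Function.Injective (sIncl L).hom := Subtype.val_injective

lemma sIncl_mem (L : Level S) (e : (sUnits L).V) : (sIncl L).hom e ∈ sUnitsAdd L := e.2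

lemma trUnits_mem {L L' : Level S} (h : L ≤ L') (x : L.units.V) (hx : x ∈ sUnitsAdd L) :
    (Level.trUnits h).hom x ∈ sUnitsAdd L' := by
  intro g'
  have h1 : L'.units.ρ g' ((Level.trUnits h).hom x) =
      (Level.trUnits h).hom (L.units.ρ (Level.proj h g') x) :=
    (Rep.hom_comm_apply (Level.trUnits h) g' x).symm
  rw [h1]
  exact hx (Level.proj h g')

/-- The inclusion `E(F) ⊂ E(F')` as a semilinear map. -/
def trS {L L' : Level S} (h : L ≤ L') : Rep.res (Level.proj h) (sUnits L) ⟶ sUnits L' :=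
  subSemi (Level.proj h) (sUnitsAdd L) (sUnitsAdd_stable L) (sUnitsAdd L') (sUnitsAdd_stable L')
    (Level.trUnits h) (trUnits_mem h)

lemma sIncl_trS {L L' : Level S} (h : L ≤ L') (e : (sUnits L).V) :
    (sIncl L').hom ((trS h).hom e) = (Level.trUnits h).hom ((sIncl L).hom e) := rfl

end SUnits

/-! ## `J(F) = ∏_{q ∈ S} J_q(F)` and `C'(F) = im (J(F) → C(F))` -/

section JC

variable {S : Finset Nat.Primes}

/-- `J(F) = ∏_{q ∈ S} J_q(F)`. -/
def Jtot (L : Level S) : Rep.{0} ℤ L.Gal := piRep (fun q : S => L.J q.1)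

/-- The diagonal `E(F) ⟶ J(F)`. -/
def diagTot (L : Level S) : sUnits L ⟶ Jtot L := piLift (fun q : S => sIncl L ≫ L.diag q.1)

lemma piTo_diagTot (L : Level S) (e : (sUnits L).V) (q : S) :
    piTo ((diagTot L).hom e) q = (L.diag q.1).hom ((sIncl L).hom e) := rfl

/-- `J(F) ⟶ J(F')`. -/
def trJtot {L L' : Level S} (h : L ≤ L') : Rep.res (Level.proj h) (Jtot L) ⟶ Jtot L' :=
  piSemi (Level.proj h) (fun q : S => Level.trJ h q.1)

lemma piTo_trJtot {L L' : Level S} (h : L ≤ L') (x : (Jtot L).V) (q : S) :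
    piTo ((trJtot h).hom x) q = (Level.trJ h q.1).hom (piTo x q) := rfl

variable (D : TowerDatum S)

/-- `J(F) ⟶ C(F)`, `(x_q) ↦ ∑_q j_q(x_q)`. -/
def jTot (L : Level S) : Jtot L ⟶ D.C L := piDesc (fun q : S => D.j L q.1)

lemma jTot_apply (L : Level S) (x : (Jtot L).V) :
    (jTot D L).hom x = ∑ q : S, (D.j L q.1).hom (piTo x q) := rfl

lemma isLocalSum_iff (L : Level S) (c : (D.C L).V) :
    D.IsLocalSum L c ↔ ∃ x : (Jtot L).V, (jTot D L).hom x = c :=
  ⟨fun ⟨x, hx⟩ => ⟨piOf x, hx.symm⟩, fun ⟨x, hx⟩ => ⟨fun q => piTo x q, hx.symm⟩⟩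

/-- The image of `J(F) → C(F)` as an additive subgroup. -/
def C1Add (L : Level S) : AddSubgroup (D.C L).V where
  carrier := {c | ∃ x : (Jtot L).V, (jTot D L).hom x = c}
  zero_mem' := ⟨0, map_zero _⟩
  add_mem' := fun {a b} ⟨x, hx⟩ ⟨y, hy⟩ => ⟨x + y, by rw [map_add, hx, hy]⟩
  neg_mem' := fun {a} ⟨x, hx⟩ => ⟨-x, by rw [map_neg, hx]⟩

lemma mem_C1Add (L : Level S) (c : (D.C L).V) : c ∈ C1Add D L ↔ D.IsLocalSum L c :=
  (isLocalSum_iff D L c).symm

lemma C1Add_stable (L : Level S) (g : L.Gal) (c : (D.C L).V) (hc : c ∈ C1Add D L) :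
    (D.C L).ρ g c ∈ C1Add D L := by
  obtain ⟨x, rfl⟩ := hc
  exact ⟨(Jtot L).ρ g x, Rep.hom_comm_apply (jTot D L) g x⟩

/-- `C'(F) = im (J(F) → C(F))` as a `Gal(F/ℚ)`-module. -/
def C1 (L : Level S) : Rep.{0} ℤ L.Gal := subRep (D.C L) (C1Add D L) (C1Add_stable D L)

/-- The inclusion `C'(F) ⟶ C(F)`. -/
def inclC1 (L : Level S) : C1 D L ⟶ D.C L := subIncl (D.C L) (C1Add D L) (C1Add_stable D L)

lemma inclC1_injective (L : Level S) : Function.Injective (inclC1 D L).hom :=
  Subtype.val_injective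

/-- The surjection `J(F) ⟶ C'(F)`. -/
def jC1 (L : Level S) : Jtot L ⟶ C1 D L :=
  subLift (C1Add D L) (C1Add_stable D L) (jTot D L) (fun x => ⟨x, rfl⟩)

lemma jC1_inclC1 (L : Level S) : jC1 D L ≫ inclC1 D L = jTot D L := rfl

lemma jC1_surjective (L : Level S) : Function.Surjective (jC1 D L).hom := by
  rintro ⟨c, x, hx⟩
  exact ⟨x, Subtype.ext hx⟩

/-- GD7a in the form used here: `tr` is compatible with `j_q` for `q ∈ S`. -/
def TrCompat : Prop :=
  ∀ {L L' : Level S} (h : L ≤ L') (q : Nat.Primes), q ∈ S → ∀ (x : (L.J q).V),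
    (D.tr h).hom ((D.j L q).hom x) = (D.j L' q).hom ((Level.trJ h q).hom x)

variable {D}

lemma tr_jTot (h7 : TrCompat D) {L L' : Level S} (h : L ≤ L') (x : (Jtot L).V) :
    (D.tr h).hom ((jTot D L).hom x) = (jTot D L').hom ((trJtot h).hom x) := by
  rw [jTot_apply, jTot_apply, map_sum]
  refine Finset.sum_congr rfl fun q _ => ?_
  exact h7 h q.1 q.2 _

lemma tr_mem_C1Add (h7 : TrCompat D) {L L' : Level S} (h : L ≤ L') (c : (D.C L).V)
    (hc : c ∈ C1Add D L) : (D.tr h).hom c ∈ C1Add D L' := by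
  obtain ⟨x, rfl⟩ := hc
  exact ⟨(trJtot h).hom x, (tr_jTot h7 h x).symm⟩

/-- `C'(F) ⟶ C'(F')`. -/
def trC1 (h7 : TrCompat D) {L L' : Level S} (h : L ≤ L') :
    Rep.res (Level.proj h) (C1 D L) ⟶ C1 D L' :=
  subSemi (Level.proj h) (C1Add D L) (C1Add_stable D L) (C1Add D L') (C1Add_stable D L')
    (D.tr h) (tr_mem_C1Add h7 h)

lemma inclC1_trC1 (h7 : TrCompat D) {L L' : Level S} (h : L ≤ L') (c : (C1 D L).V) :
    (inclC1 D L').hom ((trC1 h7 h).hom c) = (D.tr h).hom ((inclC1 D L).hom c) := rfl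

lemma trC1_jC1 (h7 : TrCompat D) {L L' : Level S} (h : L ≤ L') (x : (Jtot L).V) :
    (trC1 h7 h).hom ((jC1 D L).hom x) = (jC1 D L').hom ((trJtot h).hom x) :=
  inclC1_injective D L' (tr_jTot h7 h x)

end JC

/-! ## The short exact sequence `0 → E(F) → J(F) → C'(F) → 0` -/

section Ses

variable {S : Finset Nat.Primes} (D : TowerDatum S)

/-- GD4 in the form used here. -/
def KerDiag : Prop :=
  ∀ (L : Level S) (x : ∀ q : S, (L.J q.1).V),
    ∑ q : S, (D.j L q.1).hom (x q) = 0 ↔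
      ∃ e : L.units.V, L.IsSUnit e ∧ ∀ q : S, x q = (L.diag q.1).hom e

variable {D}

lemma diagTot_jTot (h4 : KerDiag D) (L : Level S) (e : (sUnits L).V) :
    (jTot D L).hom ((diagTot L).hom e) = 0 := by
  rw [jTot_apply]
  exact (h4 L _).2 ⟨(sIncl L).hom e, isSUnit_of_mem L (sIncl_mem L e), fun q => rfl⟩

lemma diagTot_jC1 (h4 : KerDiag D) (L : Level S) : diagTot L ≫ jC1 D L = 0 := by
  apply Rep.hom_ext
  apply DFunLike.ext
  intro e
  exact inclC1_injective D L (diagTot_jTot h4 L e)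

/-- The short complex `E(F) → J(F) → C'(F)` (short exact: leaf `LIM-SES`). -/
def ses (h4 : KerDiag D) (L : Level S) : ShortComplex (Rep.{0} ℤ L.Gal) :=
  ShortComplex.mk (diagTot L) (jC1 D L) (diagTot_jC1 h4 L)

end Ses

/-! ## Coefficient modules at finite level -/

section Coeff

variable {S : Finset Nat.Primes} (A : Rep.{0} ℤ GQ)

/-- `A` as a `Gal(F/ℚ)`-module (`Bridge.atLevel`), for `F` trivialising `A`. -/
abbrev lev (L : Level S) (hL : ∀ s ∈ L.U, A.ρ s = 1) : Rep.{0} ℤ L.Gal :=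
  Fermat.Agent.S55.Bridge.atLevel A L hL

/-- Triviality passes to higher levels. -/
lemma triv_of_le {L L' : Level S} (h : L ≤ L') (hL : ∀ s ∈ L.U, A.ρ s = 1) :
    ∀ s ∈ L'.U, A.ρ s = 1 := Fermat.Agent.S55.Bridge.trivial_of_le A h hL

/-- The identity of `A` as a morphism `A_{F'} ⟶ Res (A_F)` (the `ν` of the transition maps). -/
def levν {L L' : Level S} (h : L ≤ L') (hL : ∀ s ∈ L.U, A.ρ s = 1) :
    lev A L' (triv_of_le A h hL) ⟶ Rep.res (Level.proj h) (lev A L hL) :=
  Rep.ofHom ⟨LinearMap.id, fun g => QuotientGroup.induction_on g fun _ => rfl⟩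

/-- The identity of `A` as an isomorphism `A_{F'} ≅ Res (A_F)`. -/
def levIso {L L' : Level S} (h : L ≤ L') (hL : ∀ s ∈ L.U, A.ρ s = 1) :
    lev A L' (triv_of_le A h hL) ≅ Rep.res (Level.proj h) (lev A L hL) where
  hom := levν A h hL
  inv := Fermat.Agent.S55.Bridge.levelHom A h hL
  hom_inv_id := by
    apply Rep.hom_ext
    apply DFunLike.ext
    intro x
    rfl
  inv_hom_id := by
    apply Rep.hom_ext
    apply DFunLike.ext
    intro x
    rfl

@[simp] lemma levν_apply {L L' : Level S} (h : L ≤ L') (hL : ∀ s ∈ L.U, A.ρ s = 1)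
    (a : A.V) : (levν A h hL).hom a = a := rfl

@[simp] lemma levIso_hom {L L' : Level S} (h : L ≤ L') (hL : ∀ s ∈ L.U, A.ρ s = 1) :
    (levIso A h hL).hom = levν A h hL := rfl

end Coeff

end

end Fermat.Agent.S55.E1.Lim
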