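/-
S55 engine E1 — block LIM: composition / identity / naturality lemmas for the canonical
transition maps of `E1/Tr/Defs.lean` (`trP, trR, trA, trB, trE2, infCoeff`), in the POINTWISE
form needed for strict functoriality over the tower (`Level.proj (h.trans h')` is only
propositionally `(Level.proj h).comp (Level.proj h')`).   helper474.  Sorry-free.
Uses `H793.alg10Comp`, `H793.alg10CompE2`.
-/
import Fermat.Agent.S55.E1.H793.Alg10Comp
import Fermat.Agent.S55.E1.H354.Alg10Bdry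

set_option autoImplicit false

open CategoryTheory CategoryTheory.Limits

namespace Fermat.Agent.S55.E1.Lim

open Fermat.Agent.S55.E1

noncomputable section

attribute [local instance 10000] Rep.hV2

variable {G G' G'' : Type} [Group G] [Group G'] [Group G'']

/-- Pointwise extensionality for morphisms of representations. -/
lemma repHom_ext {A B : Rep.{0} ℤ G} {f g : A ⟶ B} (h : ∀ x : A.V, f.hom x = g.hom x) :
    f = g := by
  apply Rep.hom_ext
  apply DFunLike.ext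
  exact h

section Comp

variable (π : G' →* G) (π' : G'' →* G') (π'' : G'' →* G)
variable {N : Rep.{0} ℤ G} {N' : Rep.{0} ℤ G'} {N'' : Rep.{0} ℤ G''}
variable (ν : N' ⟶ Rep.res π N) (ν' : N'' ⟶ Rep.res π' N') (ν'' : N'' ⟶ Rep.res π'' N)
variable {X : Rep.{0} ℤ G} {X' : Rep.{0} ℤ G'} {X'' : Rep.{0} ℤ G''}
variable (ι : Rep.res π X ⟶ X') (ι' : Rep.res π' X' ⟶ X'') (ι'' : Rep.res π'' X ⟶ X'')

lemma trP_comp (hπ : ∀ g, π'' g = π (π' g)) (hν : ∀ n : N''.V, ν''.hom n = ν.hom (ν'.hom n))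
    (x : (stdP N'').V) : (trP π'' ν'').hom x = (trP π ν).hom ((trP π' ν').hom x) := by
  obtain rfl : π'' = π.comp π' := MonoidHom.ext hπ
  exact H793.trP_comp_apply π π' ν ν' ν'' hν x

lemma trR_comp (hπ : ∀ g, π'' g = π (π' g)) (hν : ∀ n : N''.V, ν''.hom n = ν.hom (ν'.hom n))
    (r : (stdR N'').V) : (trR π'' ν'').hom r = (trR π ν).hom ((trR π' ν').hom r) := by
  obtain rfl : π'' = π.comp π' := MonoidHom.ext hπ
  exact H793.trR_comp_apply π π' ν ν' ν'' hν r

lemma trA_comp (hπ : ∀ g, π'' g = π (π' g)) (hν : ∀ n : N''.V, ν''.hom n = ν.hom (ν'.hom n))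
    (hι : ∀ x : X.V, ι''.hom x = ι'.hom (ι.hom x)) (f : homA N X) :
    trA π' ν' ι' (trA π ν ι f) = trA π'' ν'' ι'' f := by
  apply repHom_ext
  intro r
  rw [trA_hom_apply, trA_hom_apply, trA_hom_apply, trR_comp π π' π'' ν ν' ν'' hπ hν, hι]

lemma trB_comp (hπ : ∀ g, π'' g = π (π' g)) (hν : ∀ n : N''.V, ν''.hom n = ν.hom (ν'.hom n))
    (hι : ∀ x : X.V, ι''.hom x = ι'.hom (ι.hom x)) (f : homB N X) :
    trB π' ν' ι' (trB π ν ι f) = trB π'' ν'' ι'' f := by
  apply repHom_ext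
  intro r
  rw [trB_hom_apply, trB_hom_apply, trB_hom_apply, trP_comp π π' π'' ν ν' ν'' hπ hν, hι]

lemma trE2_comp (hπ : ∀ g, π'' g = π (π' g)) (hν : ∀ n : N''.V, ν''.hom n = ν.hom (ν'.hom n))
    (hι : ∀ x : X.V, ι''.hom x = ι'.hom (ι.hom x)) (y : E2 N X) :
    trE2 π' ν' ι' (trE2 π ν ι y) = trE2 π'' ν'' ι'' y := by
  obtain rfl : π'' = π.comp π' := MonoidHom.ext hπ
  exact ((H793.alg10CompE2 G G' G'' π π' N N' N'' ν ν' ν'' X X' X'' ι ι' ι'' hν hι).1 y).symm

lemma infCoeff_comp (hπ : ∀ g, π'' g = π (π' g))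
    (hι : ∀ x : X.V, ι''.hom x = ι'.hom (ι.hom x)) (n : ℕ) (z : groupCohomology X n) :
    infCoeff π' ι' n (infCoeff π ι n z) = infCoeff π'' ι'' n z := by
  obtain rfl : π'' = π.comp π' := MonoidHom.ext hπ
  have h := groupCohomology.map_comp (k := ℤ) π π' ι ι' n
  have h2 : ι'' = (Rep.resFunctor π').map ι ≫ ι' := repHom_ext hι
  subst h2
  show (groupCohomology.map π' ι' n).hom ((groupCohomology.map π ι n).hom z) = _
  unfold infCoeff
  rw [h]
  rfl

end Comp

/-! ### The identity transition -/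

section Id

variable {N : Rep.{0} ℤ G} {X Y : Rep.{0} ℤ G}

/-- The identity of `N` as `ν` for `π = id`. -/
def idν (N : Rep.{0} ℤ G) : N ⟶ Rep.res (MonoidHom.id G) N := 𝟙 N

/-- A morphism `X ⟶ Y` as `ι` for `π = id`. -/
def idι (f : X ⟶ Y) : Rep.res (MonoidHom.id G) X ⟶ Y := f

@[simp] lemma idν_apply (n : N.V) : (idν N).hom n = n := rfl

@[simp] lemma idι_apply (f : X ⟶ Y) (x : X.V) : (idι f).hom x = f.hom x := rfl

lemma trP_id_apply (x : (stdP N).V) : (trP (MonoidHom.id G) (idν N)).hom x = x := by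
  have h : trP (MonoidHom.id G) (idν N) = 𝟙 (stdP N) := by
    apply Rep.free_ext
    intro n
    exact trP_stdE (MonoidHom.id G) (idν N) n
  rw [h]; rfl

lemma trR_id_apply (r : (stdR N).V) : (trR (MonoidHom.id G) (idν N)).hom r = r := by
  apply H793.stdι_hom_injective N
  rw [trR_stdι_apply, trP_id_apply]

lemma trA_id (f : X ⟶ Y) (u : homA N X) : trA (MonoidHom.id G) (idν N) (idι f) u = u ≫ f := by
  apply repHom_ext
  intro r
  rw [trA_hom_apply, trR_id_apply]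
  rfl

lemma trE2_id (f : X ⟶ Y) (y : E2 N X) :
    trE2 (MonoidHom.id G) (idν N) (idι f) y = (H354.ihomH1Map (stdR N) f).hom y := by
  have h2 : groupCohomology.map (MonoidHom.id G)
      (trIhom (MonoidHom.id G) (trR (MonoidHom.id G) (idν N)) (idι f)) 1 =
      groupCohomology.map (MonoidHom.id G) ((Rep.ihom (stdR N)).map f) 1 := by
    refine groupCohomology.map_congr rfl (LinearMap.ext fun u => ?_) 1
    refine LinearMap.ext fun r => ?_
    show f.hom ((show (stdR N).V →ₗ[ℤ] X.V from u) ((trR (MonoidHom.id G) (idν N)).hom r)) =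
      f.hom ((show (stdR N).V →ₗ[ℤ] X.V from u) r)
    rw [trR_id_apply]
  show (groupCohomology.map (MonoidHom.id G)
      (trIhom (MonoidHom.id G) (trR (MonoidHom.id G) (idν N)) (idι f)) 1).hom y = _
  rw [h2]

end Id

/-! ### Naturality in the coefficients -/

section Nat

variable (π : G' →* G) {N : Rep.{0} ℤ G} {N' : Rep.{0} ℤ G'} (ν : N' ⟶ Rep.res π N)
variable {X Y : Rep.{0} ℤ G} {X' Y' : Rep.{0} ℤ G'}

lemma trA_natural (f : X ⟶ Y) (f' : X' ⟶ Y') (ιX : Rep.res π X ⟶ X') (ιY : Rep.res π Y ⟶ Y')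
    (h : ∀ x : X.V, ιY.hom (f.hom x) = f'.hom (ιX.hom x)) (u : homA N X) :
    trA π ν ιY (u ≫ f) = trA π ν ιX u ≫ f' := by
  apply repHom_ext
  intro r
  show ιY.hom (f.hom (u.hom ((trR π ν).hom r))) = f'.hom (ιX.hom (u.hom ((trR π ν).hom r)))
  rw [h]

lemma trE2_natural (f : X ⟶ Y) (f' : X' ⟶ Y') (ιX : Rep.res π X ⟶ X')
    (ιY : Rep.res π Y ⟶ Y')
    (h : ∀ x : X.V, ιY.hom (f.hom x) = f'.hom (ιX.hom x)) (y : E2 N X) :
    trE2 π ν ιY ((H354.ihomH1Map (stdR N) f).hom y) =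
      (H354.ihomH1Map (stdR N') f').hom (trE2 π ν ιX y) := by
  rw [← trE2_id, ← trE2_id]
  rw [trE2_comp (MonoidHom.id G) π π (idν N) ν ν (idι f) ιY ((Rep.resFunctor π).map f ≫ ιY)
    (fun _ => rfl) (fun _ => rfl) (fun _ => rfl) y]
  rw [trE2_comp π (MonoidHom.id G') π ν (idν N') ν ιX (idι f') ((Rep.resFunctor π).map f ≫ ιY)
    (fun _ => rfl) (fun _ => rfl) (fun x => h x) y]

end Nat

end

end Fermat.Agent.S55.E1.Lim
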