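/-
S55 engine E1 — block LIM: THE FOUR SYSTEMS over the tower (definitions, sorry-free).
Sub-architect E1-LIM: helper474.  Blueprint: coord/S55-E1.md §4, coord/S55-E1-LIM.md.
Namespace `Fermat.Agent.S55.E1.Lim`.

For a context `c : Ctx S p` (tower datum `D`, module `M`, `N = M^∨(1)`, base level trivialising
`M` and `N`) and levels `L ≥ c.base`:
* `c.NL L = toInt (coeff N L)`, `c.ML L = toInt (coeff M L)` (helper603's conventions),
  `c.ν h : N_{L'} ⟶ Res N_L`;
* `c.sysT`  : `T_F  = A_F(C) / (Σ_q j_q A_F(J_q) + res Bc_F(C))`   (= `H957.TQ`, `H957.trT`);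
* `c.sysT1` : `T'_F = A_F(C') / im A_F(J)`;
* `c.sysK`  : `K_F  = ker (𝔈²_F(E) → 𝔈²_F(J))`;
* `c.sysSh` : `Ш²_F = {x ∈ H²(G_F, M) | infl x ∈ sha₂ S M}`, with `c.shι : Ш²_F → sha₂ S M`
  and `c.sh_isColim`.
-/
import Fermat.Agent.S55.E1.Lim.Obj
import Fermat.Agent.S55.E1.Lim.TrLemmas
import Fermat.Agent.S55.E1.LimAbs
import Fermat.Agent.S55.E1.H957.Lim3Abs
import Fermat.Agent.S55.E1.H603.CoeffInt
import Fermat.Agent.S55.E1.H603.FinLevelH2

set_option autoImplicit false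

open CategoryTheory CategoryTheory.Limits groupCohomology ExtCitation

namespace Fermat.Agent.S55.E1.Lim

open Fermat.Agent.S55.Tow Fermat.Agent.S55.E1

noncomputable section

/-! ## Coefficient modules at finite level -/

section Coeff

variable {S : Finset Nat.Primes} {K : Type} [Field K] (A : Rep.{0, 0, 0} K GQ)

/-- `A^{U_F}` as a `ℤ[Gal(F/ℚ)]`-module. -/
abbrev cf (L : Level S) : Rep.{0} ℤ L.Gal := H603.toInt (H603.coeff A L)

/-- The inclusion `A^{U_F} ⊆ A^{U_{F'}}`, as a morphism `Res (cf A L) ⟶ cf A L'`. -/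
def cfμ {L L' : Level S} (h : L ≤ L') : Rep.res (Level.proj h) (cf A L) ⟶ cf A L' :=
  H603.toIntHom (Level.proj h) (H603.transHom A h)

/-- The underlying element of `A`. -/
def cfVal {L : Level S} (a : (cf A L).V) : A.V := (a : H603.coeff A L).1

lemma cfVal_injective {L : Level S} : Function.Injective (cfVal A (L := L)) :=
  Subtype.val_injective

/-- Constructor of elements of `cf A L` when `U_F` acts trivially. -/
def cfMk {L : Level S} (hL : ∀ s ∈ L.U, ∀ a : A, A.ρ s a = a) (a : A.V) : (cf A L).V :=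
  H603.toCoeff A L hL a

@[simp] lemma cfVal_cfMk {L : Level S} (hL : ∀ s ∈ L.U, ∀ a : A, A.ρ s a = a) (a : A.V) :
    cfVal A (cfMk A hL a) = a := rfl

@[simp] lemma cfVal_cfμ {L L' : Level S} (h : L ≤ L') (a : (cf A L).V) :
    cfVal A ((cfμ A h).hom a) = cfVal A a := rfl

lemma cfVal_ρ {L : Level S} (g : GQ) (a : (cf A L).V) :
    cfVal A ((cf A L).ρ (QuotientGroup.mk g) a) = A.ρ g (cfVal A a) := rfl

/-- The identity of `A` as a morphism `cf A L' ⟶ Res (cf A L)` (`F` trivialising `A`). -/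
def cfν {L L' : Level S} (h : L ≤ L') (hL : ∀ s ∈ L.U, ∀ a : A, A.ρ s a = a) :
    cf A L' ⟶ Rep.res (Level.proj h) (cf A L) :=
  Rep.ofHom ⟨(AddMonoidHom.mk' (fun a' : (cf A L').V => cfMk A hL (cfVal A a'))
      (fun _ _ => rfl)).toIntLinearMap, fun g => by
    induction g using QuotientGroup.induction_on with
    | H g => exact LinearMap.ext fun a' => rfl⟩

@[simp] lemma cfVal_cfν {L L' : Level S} (h : L ≤ L') (hL : ∀ s ∈ L.U, ∀ a : A, A.ρ s a = a)
    (a' : (cf A L').V) : cfVal A ((cfν A h hL).hom a') = cfVal A a' := rfl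

/-- `cfν` and `cfμ` are inverse isomorphisms. -/
def cfIso {L L' : Level S} (h : L ≤ L') (hL : ∀ s ∈ L.U, ∀ a : A, A.ρ s a = a) :
    cf A L' ≅ Rep.res (Level.proj h) (cf A L) where
  hom := cfν A h hL
  inv := cfμ A h
  hom_inv_id := by
    apply Rep.hom_ext
    apply DFunLike.ext
    intro x
    exact cfVal_injective A rfl
  inv_hom_id := by
    apply Rep.hom_ext
    apply DFunLike.ext
    intro x
    exact cfVal_injective A rfl

end Coeff

/-! ## Compatibility of the diagonal with the transition maps -/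

section Diag

variable {S : Finset Nat.Primes}

lemma proj_trans_apply {L L' L'' : Level S} (h : L ≤ L') (h' : L' ≤ L'') (g : L''.Gal) :
    Level.proj (h.trans h') g = Level.proj h (Level.proj h' g) := by
  induction g using QuotientGroup.induction_on with
  | H g => rfl

lemma trJ_diag {L L' : Level S} (h : L ≤ L') (q : Nat.Primes) (x : L.units.V) :
    (Level.trJ h q).hom ((L.diag q).hom x) = (L'.diag q).hom ((Level.trUnits h).hom x) := by
  apply L'.J_ext q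
  intro g'
  have h1 : L'.units.ρ g' ((Level.trUnits h).hom x) =
      (Level.trUnits h).hom (L.units.ρ (Level.proj h g') x) :=
    (Rep.hom_comm_apply (Level.trUnits h) g' x).symm
  show Level.inclLoc h q (L.embFun q (L.units.ρ (Level.proj h g') x)) =
    L'.embFun q (L'.units.ρ g' ((Level.trUnits h).hom x))
  rw [h1]
  apply L'.locCoe_injective q
  rfl

lemma trJtot_diagTot {L L' : Level S} (h : L ≤ L') (e : (sUnits L).V) :
    (trJtot h).hom ((diagTot L).hom e) = (diagTot L').hom ((trS h).hom e) := by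
  apply piRep_ext
  intro q
  exact trJ_diag h q.1 ((sIncl L).hom e)

end Diag

/-! ## The context -/

/-- The data needed to define the systems of the engine. -/
structure Ctx (S : Finset Nat.Primes) (p : ℕ) [Fact p.Prime] where
  /-- the tower datum -/
  D : TowerDatum S
  /-- the module `M = N'` (whose `Ш²` is computed) -/
  M : Rep.{0, 0, 0} (ZMod p) GQ
  /-- the base level -/
  base : Level S
  /-- GD7a -/
  h7 : TrCompat D
  /-- GD7b -/
  h7b : ∀ {L L' L'' : Level S} (h : L ≤ L') (h' : L' ≤ L'') (c : (D.C L).V),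
    (D.tr h').hom ((D.tr h).hom c) = (D.tr (h.trans h')).hom c
  /-- GD4 -/
  h4 : KerDiag D
  /-- the base level trivialises `M` -/
  hM : ∀ s ∈ base.U, ∀ m : M, M.ρ s m = m
  /-- the base level trivialises `N = M^∨(1)` -/
  hN : ∀ s ∈ base.U, ∀ n : M.dualTwist (cycloChar p), (M.dualTwist (cycloChar p)).ρ s n = n

namespace Ctx

variable {S : Finset Nat.Primes} {p : ℕ} [Fact p.Prime] (c : Ctx S p)

/-- `N = M^∨(1)`. -/
abbrev N : Rep.{0, 0, 0} (ZMod p) GQ := c.M.dualTwist (cycloChar p)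

/-- The index set: levels above the base level. -/
def Idx : Type := {L : Level S // c.base ≤ L}

instance : Preorder c.Idx := Subtype.preorder _

instance : Nonempty c.Idx := ⟨⟨c.base, le_rfl⟩⟩

instance : IsDirected c.Idx (· ≤ ·) :=
  ⟨fun L L' => by
    obtain ⟨L'', h1, h2⟩ := exists_ge_ge L.1 L'.1
    exact ⟨⟨L'', L.2.trans h1⟩, h1, h2⟩⟩

lemma hN_at (L : c.Idx) : ∀ s ∈ L.1.U, ∀ n : c.N, c.N.ρ s n = n :=
  fun s hs n => c.hN s (Level.U_anti L.2 hs) n

lemma hM_at (L : c.Idx) : ∀ s ∈ L.1.U, ∀ m : c.M, c.M.ρ s m = m :=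
  fun s hs m => c.hM s (Level.U_anti L.2 hs) m

/-- `N` at level `L`, as a `ℤ[Gal(F/ℚ)]`-module. -/
abbrev NL (L : c.Idx) : Rep.{0} ℤ L.1.Gal := cf c.N L.1

/-- `M` at level `L`, as a `ℤ[Gal(F/ℚ)]`-module. -/
abbrev ML (L : c.Idx) : Rep.{0} ℤ L.1.Gal := cf c.M L.1

/-- The projection `Gal(F'/ℚ) → Gal(F/ℚ)`. -/
abbrev π {L L' : c.Idx} (h : L ≤ L') : L'.1.Gal →* L.1.Gal := Level.proj (S := S) h

/-- `ν : N_{L'} ⟶ Res N_L` (the identity of `N`). -/
def ν {L L' : c.Idx} (h : L ≤ L') : c.NL L' ⟶ Rep.res (c.π h) (c.NL L) :=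
  cfν c.N (S := S) h (c.hN_at L)

/-- `ν` as an isomorphism. -/
def νIso {L L' : c.Idx} (h : L ≤ L') : c.NL L' ≅ Rep.res (c.π h) (c.NL L) :=
  cfIso c.N (S := S) h (c.hN_at L)

lemma π_trans {L L' L'' : c.Idx} (h : L ≤ L') (h' : L' ≤ L'') (g : L''.1.Gal) :
    c.π (h.trans h') g = c.π h (c.π h' g) := proj_trans_apply _ _ g

lemma ν_trans {L L' L'' : c.Idx} (h : L ≤ L') (h' : L' ≤ L'') (n : (c.NL L'').V) :
    (c.ν (h.trans h')).hom n = (c.ν h).hom ((c.ν h').hom n) := rfl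

/-- The family `j_q : J_q(F) ⟶ C(F)`, `q ∈ S`. -/
abbrev jS (L : c.Idx) (q : S) : L.1.J q.1 ⟶ c.D.C L.1 := c.D.j L.1 q.1

lemma sq {L L' : c.Idx} (h : L ≤ L') (q : S) :
    (Rep.resFunctor (c.π h)).map (c.jS L q) ≫ c.D.tr h = Level.trJ h q.1 ≫ c.jS L' q :=
  H957.sq_of_apply (c.π h) (c.D.tr h) (c.jS L) (c.jS L') (fun q => Level.trJ h q.1) q
    (fun x => c.h7 h q.1 q.2 x)

/-! ### The system `T` -/

/-- `T_F = A_F(C) / (Σ_q j_q A_F(J_q) + res Bc_F(C))`. -/
abbrev TObj (L : c.Idx) : Type := H957.TQ (N := c.NL L) (c.jS L)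

/-- The transition maps of `T`. -/
def trT {L L' : c.Idx} (h : L ≤ L') : c.TObj L →+ c.TObj L' :=
  H957.trT (c.π h) (c.ν h) (c.D.tr h) (c.jS L) (c.jS L') (fun q => Level.trJ h q.1) (c.sq h)

lemma trT_mk {L L' : c.Idx} (h : L ≤ L') (f : homA (c.NL L) (c.D.C L.1)) :
    c.trT h (QuotientAddGroup.mk f) = QuotientAddGroup.mk (trA (c.π h) (c.ν h) (c.D.tr h) f) :=
  rfl

/-- The system `T`. -/
def sysT : AddSys c.Idx where
  obj := c.TObj
  grp := fun _ => inferInstance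
  tr := fun h => c.trT h
  tr_tr := fun {L L' L''} h h' t => by
    induction t using QuotientAddGroup.induction_on with
    | H f =>
      rw [trT_mk, trT_mk, trT_mk]
      congr 1
      exact trA_comp (c.π h) (c.π h') (c.π (h.trans h')) (c.ν h) (c.ν h') (c.ν (h.trans h'))
        (c.D.tr h) (c.D.tr h') (c.D.tr (h.trans h')) (c.π_trans h h') (c.ν_trans h h')
        (fun x => (c.h7b h h' x).symm) f

/-! ### The system `T'` -/

/-- `im (A_F(J) → A_F(C'))`. -/
abbrev T1Sub (L : c.Idx) : AddSubgroup (homA (c.NL L) (C1 c.D L.1)) :=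
  (Preadditive.rightComp (stdR (c.NL L)) (jC1 c.D L.1)).range

/-- `T'_F = A_F(C') / im A_F(J)`. -/
abbrev T1Obj (L : c.Idx) : Type := homA (c.NL L) (C1 c.D L.1) ⧸ c.T1Sub L

lemma trA_mem_T1Sub {L L' : c.Idx} (h : L ≤ L') :
    c.T1Sub L ≤ (c.T1Sub L').comap (trA (c.π h) (c.ν h) (trC1 c.h7 h)) := by
  rintro _ ⟨u, rfl⟩
  refine ⟨trA (c.π h) (c.ν h) (trJtot h) u, ?_⟩
  exact (trA_natural (c.π h) (c.ν h) (jC1 c.D L.1) (jC1 c.D L'.1) (trJtot h) (trC1 c.h7 h)
    (fun x => trC1_jC1 c.h7 h x) u).symm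

/-- The transition maps of `T'`. -/
def trT1 {L L' : c.Idx} (h : L ≤ L') : c.T1Obj L →+ c.T1Obj L' :=
  QuotientAddGroup.map _ _ (trA (c.π h) (c.ν h) (trC1 c.h7 h)) (c.trA_mem_T1Sub h)

lemma trT1_mk {L L' : c.Idx} (h : L ≤ L') (f : homA (c.NL L) (C1 c.D L.1)) :
    c.trT1 h (QuotientAddGroup.mk f) =
      QuotientAddGroup.mk (trA (c.π h) (c.ν h) (trC1 c.h7 h) f) := rfl

lemma trC1_trans {L L' L'' : c.Idx} (h : L ≤ L') (h' : L' ≤ L'') (x : (C1 c.D L.1).V) :
    (trC1 c.h7 (h.trans h')).hom x = (trC1 c.h7 h').hom ((trC1 c.h7 h).hom x) := by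
  apply inclC1_injective c.D L''.1
  rw [inclC1_trC1, inclC1_trC1, inclC1_trC1]
  exact (c.h7b h h' _).symm

/-- The system `T'`. -/
def sysT1 : AddSys c.Idx where
  obj := c.T1Obj
  grp := fun _ => inferInstance
  tr := fun h => c.trT1 h
  tr_tr := fun {L L' L''} h h' t => by
    induction t using QuotientAddGroup.induction_on with
    | H f =>
      rw [trT1_mk, trT1_mk, trT1_mk]
      congr 1
      exact trA_comp (c.π h) (c.π h') (c.π (h.trans h')) (c.ν h) (c.ν h') (c.ν (h.trans h'))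
        (trC1 c.h7 h) (trC1 c.h7 h') (trC1 c.h7 (h.trans h')) (c.π_trans h h') (c.ν_trans h h')
        (c.trC1_trans h h') f

/-! ### The system `K` -/

/-- `K_F = ker (𝔈²_F(E) → 𝔈²_F(J))`. -/
abbrev KSub (L : c.Idx) : AddSubgroup (E2 (c.NL L) (sUnits L.1)) :=
  (H354.ihomH1Map (stdR (c.NL L)) (diagTot L.1)).hom.toAddMonoidHom.ker

/-- `K_F` as a type. -/
abbrev KObj (L : c.Idx) : Type := c.KSub L

lemma trE2_mem_KSub {L L' : c.Idx} (h : L ≤ L') (y : E2 (c.NL L) (sUnits L.1))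
    (hy : y ∈ c.KSub L) : trE2 (c.π h) (c.ν h) (trS h) y ∈ c.KSub L' := by
  have h1 := trE2_natural (c.π h) (c.ν h) (diagTot L.1) (diagTot L'.1) (trS h) (trJtot h)
    (fun e => trJtot_diagTot h e) y
  show (H354.ihomH1Map (stdR (c.NL L')) (diagTot L'.1)).hom (trE2 (c.π h) (c.ν h) (trS h) y) = 0
  rw [← h1]
  have h2 : (H354.ihomH1Map (stdR (c.NL L)) (diagTot L.1)).hom y = 0 := hy
  rw [h2, map_zero]

/-- The transition maps of `K`. -/
def trK {L L' : c.Idx} (h : L ≤ L') : c.KObj L →+ c.KObj L' where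
  toFun y := ⟨trE2 (c.π h) (c.ν h) (trS h) y.1, c.trE2_mem_KSub h y.1 y.2⟩
  map_zero' := Subtype.ext (map_zero _)
  map_add' := fun x y => Subtype.ext (map_add _ _ _)

lemma trK_val {L L' : c.Idx} (h : L ≤ L') (y : c.KObj L) :
    (c.trK h y).1 = trE2 (c.π h) (c.ν h) (trS h) y.1 := rfl

lemma trS_trans {L L' L'' : c.Idx} (h : L ≤ L') (h' : L' ≤ L'') (x : (sUnits L.1).V) :
    (trS (h.trans h')).hom x = (trS h').hom ((trS h).hom x) := rfl

/-- The system `K`. -/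
def sysK : AddSys c.Idx where
  obj := c.KObj
  grp := fun _ => inferInstance
  tr := fun h => c.trK h
  tr_tr := fun {L L' L''} h h' y => by
    apply Subtype.ext
    rw [trK_val, trK_val, trK_val]
    exact trE2_comp (c.π h) (c.π h') (c.π (h.trans h')) (c.ν h) (c.ν h') (c.ν (h.trans h'))
      (trS h) (trS h') (trS (h.trans h')) (c.π_trans h h') (c.ν_trans h h')
      (c.trS_trans h h') y.1

/-! ### The system `Ш²` and its colimit -/

/-- `Ш²_F = {x ∈ H²(Gal(F/ℚ), M) | infl x ∈ sha₂ S M}` (coefficients over `𝔽_p`). -/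
abbrev ShSub (L : c.Idx) : Submodule (ZMod p) (H2 (H603.coeff c.M L.1)) :=
  (sha₂ S c.M).comap (H603.infl₂ c.M L.1)

/-- `Ш²_F` as a type. -/
abbrev ShObj (L : c.Idx) : Type := c.ShSub L

lemma tr₂_mem_ShSub {L L' : c.Idx} (h : L ≤ L') (x : H2 (H603.coeff c.M L.1))
    (hx : x ∈ c.ShSub L) : H603.tr₂ c.M (S := S) h x ∈ c.ShSub L' := by
  show H603.infl₂ c.M L'.1 (H603.tr₂ c.M (S := S) h x) ∈ sha₂ S c.M
  rw [H603.infl₂_tr₂]
  exact hx

/-- The transition maps of `Ш²`. -/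
def trSh {L L' : c.Idx} (h : L ≤ L') : c.ShObj L →+ c.ShObj L' where
  toFun x := ⟨H603.tr₂ c.M (S := S) h x.1, c.tr₂_mem_ShSub h x.1 x.2⟩
  map_zero' := Subtype.ext (map_zero _)
  map_add' := fun x y => Subtype.ext (map_add _ _ _)

lemma trSh_val {L L' : c.Idx} (h : L ≤ L') (x : c.ShObj L) :
    (c.trSh h x).1 = H603.tr₂ c.M (S := S) h x.1 := rfl

/-- The system `Ш²`. -/
def sysSh : AddSys c.Idx where
  obj := c.ShObj
  grp := fun _ => inferInstance
  tr := fun h => c.trSh h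
  tr_tr := fun {L L' L''} h h' x => by
    apply Subtype.ext
    rw [trSh_val, trSh_val, trSh_val]
    exact H603.tr₂_tr₂ c.M (S := S) h h' x.1

/-- The map `Ш²_F → sha₂ S M`. -/
def shι (L : c.Idx) : c.sysSh.obj L →+ sha₂ S c.M where
  toFun x := ⟨H603.infl₂ c.M L.1 x.1, x.2⟩
  map_zero' := Subtype.ext (map_zero _)
  map_add' := fun x y => Subtype.ext (map_add _ _ _)

lemma shι_val (L : c.Idx) (x : c.sysSh.obj L) : (c.shι L x).1 = H603.infl₂ c.M L.1 x.1 := rfl

/-- **`sha₂ S M` is the colimit of the `Ш²_F`** (helper603's `exists_infl₂_eq`,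
`exists_tr₂_eq_zero`, `infl₂_tr₂`). -/
theorem sh_isColim : AddSys.IsColim c.sysSh (sha₂ S c.M) c.shι where
  compat := fun {L L'} h x => Subtype.ext (H603.infl₂_tr₂ c.M (S := S) h x.1)
  surj := fun y => by
    obtain ⟨L, hL, x, hx⟩ := H603.exists_infl₂_eq c.M c.base c.hM y.1
    refine ⟨⟨L, hL⟩, ⟨x, ?_⟩, Subtype.ext hx⟩
    show H603.infl₂ c.M L x ∈ sha₂ S c.M
    rw [hx]
    exact y.2
  sep := fun L x hx => by
    have h0 : H603.infl₂ c.M L.1 x.1 = 0 := congrArg Subtype.val hx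
    obtain ⟨L', h, hL'⟩ := H603.exists_tr₂_eq_zero c.M L.1 (c.hM_at L) x.1 h0
    exact ⟨⟨L', L.2.trans h⟩, h, Subtype.ext hL'⟩

end Ctx

end

end Fermat.Agent.S55.E1.Lim
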