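/-
S55 engine E1 — block LIM, leaf LIM-BASE (helper474): a level trivialising `M` and
`N = M^∨(1)` and containing `μ_p`.  All proofs complete.
-/
import Fermat.Agent.S55.E1.SpecLim
import Fermat.Agent.S55.Bridge.DualTwist
import Fermat.Agent.S55.Cap.HasMuH181

set_option autoImplicit false

open CategoryTheory groupCohomology ExtCitation

namespace Fermat.Agent.S55.E1.Lim

open Fermat.Agent.S55.Tow Fermat.Agent.S55.E1

/-- **LIM-BASE.** -/
theorem limBase : LIMBaseSpec := by
  intro p _ _ S hpS M _ hM
  obtain ⟨F, hF, hgal, h1, h2, h3⟩ :=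
    Fermat.Agent.S55.Bridge.exists_common_galois_level M S hpS hM.1 hM.2
  refine ⟨H603.levelOfGalois F hF hgal, ?_, ?_, ?_⟩
  · apply Fermat.Agent.S55.Cap.H181.hasMu p S
    intro s hs
    have hχ : cycloChar p s = 1 := h2 s hs
    apply LinearMap.ext
    intro x
    show ((cycloChar p s : (ZMod p)ˣ) : ZMod p) * x = x
    rw [hχ, Units.val_one, one_mul]
  · intro s hs m
    have := h1 s hs
    rw [this]
    rfl
  · intro s hs n
    have := h3 s hs
    rw [this]
    rfl

end Fermat.Agent.S55.E1.Lim
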