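/-
S55 engine E1 — block LIM, leaf LIM4 (glue, helper474): `|Ш¹_F(N)| = |sha₁ S N|` for all large
levels, in the vocabulary of `E1/SpecLim.lean`.  The content is helper603's
`H603.exists_level_forall_card_sha1Fin_eq`; here: change of coefficient ring `𝔽_p → ℤ`.
All proofs complete.
-/
import Fermat.Agent.S55.E1.SpecLim
import Fermat.Agent.S55.E1.H603.FinLevelH1
import Fermat.Agent.S55.E1.H603.CoeffInt

set_option autoImplicit false

open CategoryTheory groupCohomology ExtCitation

namespace Fermat.Agent.S55.E1.Lim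

open Fermat.Agent.S55.Tow Fermat.Agent.S55.E1

noncomputable section

variable {S : Finset Nat.Primes} {K : Type} [Field K] (A : Rep.{0, 0, 0} K GQ)

/-- Restriction to the decomposition group commutes with the change of coefficient ring. -/
lemma resAlong_eq_zero_iff (L : Level S) (q : Nat.Primes) (x : H1 (H603.toInt (H603.coeff A L))) :
    resAlong (L.decHom q) (cf A L) 1 x = 0 ↔
      H603.resDec₁ A L q (H603.H1IntEquiv (H603.coeff A L) x) = 0 := by
  have h := H603.H1IntEquiv_map (L.decHom q) (𝟙 (Rep.res (L.decHom q) (H603.coeff A L))) x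
  constructor
  · intro hx
    have hx' : (groupCohomology.map (L.decHom q) (H603.toIntHom (L.decHom q)
        (𝟙 (Rep.res (L.decHom q) (H603.coeff A L)))) 1).hom x = 0 := hx
    exact h.symm.trans ((congrArg _ hx').trans (map_zero _))
  · intro hx
    have h3 : H603.H1IntEquiv (Rep.res (L.decHom q) (H603.coeff A L))
        ((groupCohomology.map (L.decHom q) (H603.toIntHom (L.decHom q)
          (𝟙 (Rep.res (L.decHom q) (H603.coeff A L)))) 1).hom x) = 0 := h.trans hx
    exact (AddEquiv.map_eq_zero_iff _).1 h3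

/-- `x ∈ Ш¹_F` over `ℤ` iff its image lies in `Ш¹_F` over `K`. -/
lemma mem_shaFin_iff (L : Level S) (x : H1 (H603.toInt (H603.coeff A L))) :
    x ∈ shaFin (decS L) (cf A L) ↔
      H603.H1IntEquiv (H603.coeff A L) x ∈ H603.sha1Fin A L := by
  simp only [H603.sha1Fin, Submodule.mem_iInf, LinearMap.mem_ker]
  exact forall_congr' fun q => resAlong_eq_zero_iff A L q.1 x

/-- The two finite-level `Ш¹` have the same cardinality. -/
lemma card_shaFin_eq (L : Level S) :
    Nat.card (shaFin (decS L) (cf A L)) = Nat.card (H603.sha1Fin A L) := by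
  apply Nat.card_congr
  exact
    { toFun := fun x => ⟨H603.H1IntEquiv (H603.coeff A L) x.1, (mem_shaFin_iff A L x.1).1 x.2⟩
      invFun := fun y => ⟨(H603.H1IntEquiv (H603.coeff A L)).symm y.1,
        (mem_shaFin_iff A L _).2 (by rw [AddEquiv.apply_symm_apply]; exact y.2)⟩
      left_inv := fun x => Subtype.ext (AddEquiv.symm_apply_apply _ _)
      right_inv := fun y => Subtype.ext (AddEquiv.apply_symm_apply _ _) }

end

/-- **LIM4.** -/
theorem lim4 : LIM4Spec := by
  intro p _ hp2 S hpS hF N _ L₀ hN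
  have h2 : (2 : ZMod p) ≠ 0 := Fermat.Agent.S55.Bridge.two_ne_zero_zmod hp2
  have hfinH1 : Module.Finite (ZMod p) (continuousH1S S N) :=
    hF N ⟨L₀, fun s hs => LinearMap.ext fun n => hN s hs n⟩
  have hfin1 : Finite (continuousH1S S N) := Module.finite_of_finite (ZMod p)
  have hfin : Finite (sha₁ S N) := by
    apply Finite.of_injective
      (fun y : sha₁ S N => (⟨y.1, ((Fermat.Agent.S55.Bridge.mem_sha₁_iff S h2 N _).1 y.2).1⟩ :
        continuousH1S S N))
    intro y y' h
    exact Subtype.ext (congrArg (fun t : continuousH1S S N => (t : H1 N)) h)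
  refine ⟨hfin, ?_⟩
  obtain ⟨L₁, h₁, h⟩ := H603.exists_level_forall_card_sha1Fin_eq N h2 L₀ hN
  exact ⟨L₁, h₁, fun L hL => (card_shaFin_eq N L).trans (h L hL)⟩

end Fermat.Agent.S55.E1.Lim
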