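/-
S55 engine E1 — block LIM, FINAL WIRING (helper474).  All proofs complete.

`engineSpecFin_of_lim5 : LIM5Spec → EngineSpecFin` (all other leaves of `E1/SpecLim.lean` are
theorems on main: `limBase`, `lim4`, `H719.lim1`, `H719.lim2`, `H957.lim3`), and
`lim5Spec_of` : `LIM5Spec` from helper603's four statements (`E1/H603/Lim5Defs.lean`).
-/
import Fermat.Agent.S55.E1.Lim.Base
import Fermat.Agent.S55.E1.Lim.Lim4
import Fermat.Agent.S55.E1.H719.Lim12
import Fermat.Agent.S55.E1.H957.Lim3
import Fermat.Agent.S55.E1.H603.Lim5Defs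

set_option autoImplicit false

open CategoryTheory groupCohomology ExtCitation

namespace Fermat.Agent.S55.E1.Lim

open Fermat.Agent.S55.Tow Fermat.Agent.S55.E1

/-- The four statements of LIM5 for all good contexts. -/
def LIM5PartsSpec : Prop :=
  ∀ (p : ℕ) [Fact p.Prime] (S : Finset Nat.Primes) (c : Ctx S p) (hc : c.Good),
    H603.Lim5iSpec c hc.mu ∧ H603.Lim5iiSpec c hc.mu ∧ H603.Lim5iiiSpec c hc.mu ∧
      H603.Lim5CompatSpec c hc.mu

/-- **LIM5** from its four parts. -/
theorem lim5Spec_of (h : LIM5PartsSpec) : LIM5Spec := by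
  intro p _ S c hc
  obtain ⟨h1, h2, h3, h4⟩ := h p S c hc
  exact H603.lim5_of_specs c hc.mu h1 h2 h3 (fun {L L'} hLL x => h4 hLL x)

/-- **The engine**, from LIM5 alone. -/
theorem engineSpecFin_of_lim5 (h5 : LIM5Spec) : EngineSpecFin :=
  engineSpecFin_of limBase lim4 H719.lim1 H719.lim2 H957.lim3 h5

/-- **The engine**, from the four parts of LIM5. -/
theorem engineSpecFin_of_parts (h : LIM5PartsSpec) : EngineSpecFin :=
  engineSpecFin_of_lim5 (lim5Spec_of h)

end Fermat.Agent.S55.E1.Lim
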