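/-
S55 engine E1 — block LIM CLOSED (helper474): `engineSpecFin : EngineSpecFin`, unconditional.
Leaves: `limBase`, `lim4` (474), `H719.lim1`, `H719.lim2` (719), `H957.lim3` (957),
`H603.lim5` (603, with 423, 719, 295, 895).  All proofs complete.
-/
import Fermat.Agent.S55.E1.Lim.Final
import Fermat.Agent.S55.E1.H603.Lim5

set_option autoImplicit false

namespace Fermat.Agent.S55.E1.Lim

open Fermat.Agent.S55.E1

/-- **THE ENGINE E1**: `finrank Ш¹_S(M^∨(1)) = finrank Ш²_S(M)` from the arithmetic inputs. -/
theorem engineSpecFin : EngineSpecFin := engineSpecFin_of_lim5 H603.lim5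

end Fermat.Agent.S55.E1.Lim
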